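/-
S33 / Depth.  TASK DEPTH-9: the formulas `(*)` and `(**)` for integral Laurent series.

`A` a discrete valuation ring of residue characteristic `p` containing a primitive `p`-th root of
unity `ξ` (so `ξ ≡ 1`).  `Nm = MulHecke.V p ξ : f ↦ ∏_b f(ξ ^ b q ^ (1/p))`,
`Tm p ξ f = f(q ^ p) * Nm f`.  Then
`Nm (X + π ^ m Y) ≡ Nm X  mod π ^ (m + 1)`  and  `Tm (X + π ^ m Y) ≡ Tm X + π ^ m Y(q ^ p) Nm X`.
-/
import Fermat.Agent.S18.Vert.IntSeries
import Fermat.Agent.Lib.MulHecke.Frob
import Fermat.Agent.Lib.MulHecke.Root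

set_option autoImplicit false

namespace Fermat.Agent.S33.Depth

open ModularCurve Fermat.Agent.S18.Vert Fermat.Agent.Lib.MulHecke

/-- First order expansion of a product (induction on `s`). -/
theorem prod_add_expand {R ι : Type*} [CommRing R] [DecidableEq ι] (s : Finset ι) (x y : ι → R)
    (t : R) : ∃ r : R, ∏ b ∈ s, (x b + t * y b) =
      ∏ b ∈ s, x b + t * ∑ b ∈ s, y b * ∏ b' ∈ s.erase b, x b' + t ^ 2 * r := by
  induction s using Finset.induction_on with
  | empty => exact ⟨0, by simp⟩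
  | insert a s ha ih =>
    obtain ⟨r, hr⟩ := ih
    have h1 : ∑ b ∈ s, y b * ∏ b' ∈ (insert a s).erase b, x b' =
        x a * ∑ b ∈ s, y b * ∏ b' ∈ s.erase b, x b' := by
      rw [Finset.mul_sum]
      refine Finset.sum_congr rfl ?_
      intro b hb
      have hab : a ≠ b := fun h => ha (h ▸ hb)
      rw [Finset.erase_insert_of_ne hab, Finset.prod_insert (fun h => ha (Finset.mem_of_mem_erase h))]
      ring
    refine ⟨x a * r + y a * (∑ b ∈ s, y b * ∏ b' ∈ s.erase b, x b') + t * y a * r, ?_⟩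
    rw [Finset.prod_insert ha, Finset.prod_insert ha, Finset.sum_insert ha, hr,
      Finset.erase_insert ha, h1]
    ring

variable {K : Type*} [Field K] {A : ValuationSubring K} [IsDiscreteValuationRing A]
  {p : ℕ} [Fact p.Prime] {π : A}

/-- the residue field has characteristic `p` -/
theorem charP_residueField (hπ : Irreducible π) (hp : π ∣ (p : A)) :
    CharP (IsLocalRing.ResidueField A) p := by
  have h0 : ((p : ℕ) : IsLocalRing.ResidueField A) = 0 := by
    have := (residue_eq_zero_iff_dvd hπ (p : A)).2 hp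
    rwa [map_natCast] at this
  exact (CharP.charP_iff_prime_eq_zero Fact.out).2 h0

/-- a `p`-th root of unity is `≡ 1` (`(ξ̄ - 1) ^ p = ξ̄ ^ p - 1 = 0` in characteristic `p`) -/
theorem map_residue_root (hπ : Irreducible π) (hp : π ∣ (p : A)) {ξ : Aˣ} (hξ : ξ ^ p = 1) :
    Units.map ((IsLocalRing.residue A : A →+* IsLocalRing.ResidueField A) :
      A →* IsLocalRing.ResidueField A) ξ = 1 := by
  have := charP_residueField (p := p) hπ hp
  apply Units.ext
  rw [Units.val_one, Units.coe_map]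
  have h1 : (IsLocalRing.residue A (ξ : A)) ^ p = 1 := by
    rw [← map_pow, ← Units.val_pow_eq_pow_val, hξ, Units.val_one, map_one]
  have h2 : (IsLocalRing.residue A (ξ : A) - 1) ^ p = 0 := by
    rw [sub_pow_char, h1, one_pow, sub_self]
  exact sub_eq_zero.1 (pow_eq_zero_iff (Fact.out : p.Prime).ne_zero |>.1 h2)

/-- (`coeffMap_tw`, `map_residue_root`, `tw_one`; `red A = coeffMap (residue A)` by definition) -/
theorem red_tw (hπ : Irreducible π) (hp : π ∣ (p : A)) {ξ : Aˣ} (hξ : ξ ^ p = 1)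
    (P : LaurentSeries A) : red A (tw ξ P) = red A P := by
  show coeffMap (IsLocalRing.residue A) (tw ξ P) = coeffMap (IsLocalRing.residue A) P
  rw [coeffMap_tw, map_residue_root hπ hp hξ, tw_one]

/-- (`prod_add_expand` with `t = C π ^ m`; the sum reduces to `p * (red Y * red X ^ (p - 1)) = 0`,
so it is `C π * _` by `red_eq_zero_iff`; `2 m ≥ m + 1`.) -/
theorem prodTw_add (hπ : Irreducible π) (hp : π ∣ (p : A)) {ξ : Aˣ} (hξ : ξ ^ p = 1) {m : ℕ}
    (hm : 1 ≤ m) (X Y : LaurentSeries A) :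
    ∃ Z : LaurentSeries A, prodTw ξ p (X + HahnSeries.C π ^ m * Y) =
      prodTw ξ p X + HahnSeries.C π ^ (m + 1) * Z := by
  have := charP_residueField (p := p) hπ hp
  obtain ⟨r, hr⟩ := prod_add_expand (Finset.range p) (fun b => tw (ξ ^ b) X)
    (fun b => tw (ξ ^ b) Y) (HahnSeries.C π ^ m : LaurentSeries A)
  have hpow : ∀ b : ℕ, (ξ ^ b) ^ p = 1 := fun b => by
    rw [← pow_mul, mul_comm, pow_mul, hξ, one_pow]
  have hsum : red A (∑ b ∈ Finset.range p, tw (ξ ^ b) Y *
      ∏ b' ∈ (Finset.range p).erase b, tw (ξ ^ b') X) = 0 := by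
    rw [map_sum]
    have : ∀ b ∈ Finset.range p, red A (tw (ξ ^ b) Y *
        ∏ b' ∈ (Finset.range p).erase b, tw (ξ ^ b') X) = red A Y * red A X ^ (p - 1) := by
      intro b hb
      rw [map_mul, map_prod, red_tw hπ hp (hpow b),
        Finset.prod_congr rfl (fun b' _ => red_tw hπ hp (hpow b') X), Finset.prod_const,
        Finset.card_erase_of_mem hb, Finset.card_range]
    rw [Finset.sum_congr rfl this, Finset.sum_const, Finset.card_range, nsmul_eq_mul]
    have hp0 : ((p : ℕ) : LaurentSeries (IsLocalRing.ResidueField A)) = 0 := by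
      rw [← map_natCast (HahnSeries.C : IsLocalRing.ResidueField A →+* LaurentSeries _),
        CharP.cast_eq_zero, map_zero]
    rw [hp0, zero_mul]
  obtain ⟨W, hW⟩ := (red_eq_zero_iff hπ _).1 hsum
  obtain ⟨j, rfl⟩ : ∃ j, m = j + 1 := ⟨m - 1, by omega⟩
  refine ⟨W + HahnSeries.C π ^ j * r, ?_⟩
  have hL : prodTw ξ p (X + HahnSeries.C π ^ (j + 1) * Y) =
      ∏ b ∈ Finset.range p, (tw (ξ ^ b) X + HahnSeries.C π ^ (j + 1) * tw (ξ ^ b) Y) := by
    rw [prodTw]
    refine Finset.prod_congr rfl ?_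
    intro b _
    rw [map_add, map_mul, map_pow, Root_tw_C]
  rw [hL, hr, hW, prodTw]
  ring

/-- `contract` commutes with the multiplication by a constant -/
theorem contract_C_mul {R : Type*} [CommRing R] (ℓ : ℕ) [NeZero ℓ] (c : R) (f : LaurentSeries R) :
    contract ℓ (HahnSeries.C c * f) = HahnSeries.C c * contract ℓ f := by
  ext k
  rw [contract_coeff, HahnSeries.C_apply, HahnSeries.coeff_single_mul, sub_zero,
    HahnSeries.coeff_single_mul, sub_zero, contract_coeff]

/-- **`(**)` for integral series.** -/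
theorem V_add (hπ : Irreducible π) (hp : π ∣ (p : A)) {ξ : Aˣ} (hξ : ξ ^ p = 1) {m : ℕ}
    (hm : 1 ≤ m) (X Y : LaurentSeries A) :
    ∃ Z : LaurentSeries A, V p ξ (X + HahnSeries.C π ^ m * Y) =
      V p ξ X + HahnSeries.C π ^ (m + 1) * Z := by
  obtain ⟨Z, hZ⟩ := prodTw_add hπ hp hξ hm X Y
  refine ⟨contract p Z, ?_⟩
  rw [V, V, hZ, map_add, ← map_pow, contract_C_mul]

/-- (`coeffMap_V`, `map_residue_root`, `V_one_left`) -/
theorem red_V [CharP (IsLocalRing.ResidueField A) p] (hπ : Irreducible π) (hp : π ∣ (p : A))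
    {ξ : Aˣ} (hξ : ξ ^ p = 1) (X : LaurentSeries A) :
    red A (V p ξ X) = coeffMap (frobenius (IsLocalRing.ResidueField A) p) (red A X) := by
  show coeffMap (IsLocalRing.residue A) (V p ξ X) = _
  rw [coeffMap_V, map_residue_root hπ hp hξ, V_one_left]
  rfl

/-- **`(*)` for integral series.** -/
theorem Tm_add [CharP (IsLocalRing.ResidueField A) p] (hπ : Irreducible π) (hp : π ∣ (p : A))
    {ξ : Aˣ} (hξ : ξ ^ p = 1) {m : ℕ} (hm : 1 ≤ m) (X Y : LaurentSeries A) :
    ∃ Z : LaurentSeries A, Tm p ξ (X + HahnSeries.C π ^ m * Y) =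
        Tm p ξ X + HahnSeries.C π ^ m * Z ∧
      red A Z = qExpand _ p (red A Y) *
        coeffMap (frobenius (IsLocalRing.ResidueField A) p) (red A X) := by
  obtain ⟨W, hW⟩ := V_add hπ hp hξ hm X Y
  have hπ0 : red A (HahnSeries.C π) = 0 := by
    rw [red_C, (residue_eq_zero_iff_dvd hπ π).2 dvd_rfl, map_zero]
  have hq : ∀ P : LaurentSeries A, red A (qExpand A p P) = qExpand _ p (red A P) :=
    fun P => coeffMap_qExpand (IsLocalRing.residue A) p P
  refine ⟨qExpand A p Y * V p ξ X + HahnSeries.C π * (qExpand A p X * W) +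
    HahnSeries.C π ^ (m + 1) * (qExpand A p Y * W), ?_, ?_⟩
  · rw [Tm, Tm, hW, map_add, map_mul, map_pow, qExpand_C]
    ring
  · rw [map_add, map_add, map_mul, map_mul (red A) (HahnSeries.C π), map_mul (red A) (_ ^ _),
      map_pow, hπ0, zero_mul, zero_pow (Nat.succ_ne_zero m), zero_mul, add_zero, add_zero, hq,
      red_V hπ hp hξ]

/-- the reduction of `Tm X` -/
theorem red_Tm [CharP (IsLocalRing.ResidueField A) p] (hπ : Irreducible π) (hp : π ∣ (p : A))
    {ξ : Aˣ} (hξ : ξ ^ p = 1) (X : LaurentSeries A) :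
    red A (Tm p ξ X) = qExpand _ p (red A X) *
        coeffMap (frobenius (IsLocalRing.ResidueField A) p) (red A X) := by
  have hq : ∀ P : LaurentSeries A, red A (qExpand A p P) = qExpand _ p (red A P) :=
    fun P => coeffMap_qExpand (IsLocalRing.residue A) p P
  rw [Tm, map_mul, hq, red_V hπ hp hξ]

/-- the coefficientwise Frobenius is injective on series over a field -/
theorem coeffMap_frobenius_ne_zero {k : Type*} [Field k] [CharP k p] {f : LaurentSeries k}
    (hf : f ≠ 0) : coeffMap (frobenius k p) f ≠ 0 := by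
  intro h
  apply hf
  ext n
  have h1 := congrArg (fun g : LaurentSeries k => g.coeff n) h
  simp only [coeffMap_coeff, HahnSeries.coeff_zero] at h1
  rw [HahnSeries.coeff_zero]
  exact (map_eq_zero (frobenius k p)).1 h1

end Fermat.Agent.S33.Depth
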