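/-
S33 / Depth.  TASK DEPTH-10: the formulas `(*)` and `(**)` on a field `F ⊆ K((q))` of quotients of
integral series, for the Gauss valuation (`Fermat.Agent.S18.Vert`).
-/
import Fermat.Agent.S33.Depth.Star.Formal
import Fermat.Agent.S18.Vert.GaussRes

set_option autoImplicit false
set_option linter.unusedSectionVars false

namespace Fermat.Agent.S33.Depth

open ModularCurve Fermat.Agent.S18.Vert Fermat.Agent.Lib.MulHecke

variable {K : Type*} [Field K] {A : ValuationSubring K} [IsDiscreteValuationRing A]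
  {F : IntermediateField K (LaurentSeries K)} (hq : IsQuot A F)
  {p : ℕ} [Fact p.Prime] {π : A}

/-- the root of unity of `A`, in `K` -/
noncomputable abbrev unitK (ξ : Aˣ) : Kˣ := Units.map ((A.subtype : A →+* K) : A →* K) ξ

/-- (`coeffMap_Tm`; `inc A = coeffMap A.subtype` by definition) -/
theorem inc_Tm (ξ : Aˣ) (X : LaurentSeries A) : inc A (Tm p ξ X) = Tm p (unitK ξ) (inc A X) :=
  coeffMap_Tm p A.subtype ξ X

theorem inc_V (ξ : Aˣ) (X : LaurentSeries A) : inc A (V p ξ X) = V p (unitK ξ) (inc A X) :=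
  coeffMap_V p A.subtype ξ X

omit [IsDiscreteValuationRing A] [Fact p.Prime] in
/-- the constant `π ^ m` of `F`, as a series -/
theorem coe_algebraMap_pow (m : ℕ) :
    ((algebraMap K F (π : K) ^ m : F) : LaurentSeries K) = inc A (HahnSeries.C π ^ m) := by
  rw [map_pow, inc_C]
  rfl

/-- The common part of the proofs of `(*)` and `(**)`: let `T : F →* F` be given on integral series
by `τ`, and assume `τ (Q + π ^ m P) = τ Q + π ^ n Z` with `red (τ Q) ≠ 0`.  Then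
`T (1 + π ^ m (P / Q)) = 1 + π ^ n (Z / τ Q)`. -/
theorem star_aux (hπ : Irreducible π) (T : F →* F) (τ : LaurentSeries A → LaurentSeries A)
    (hT : ∀ (X : LaurentSeries A) (hX : inc A X ∈ F),
      ((T ⟨inc A X, hX⟩ : F) : LaurentSeries K) = inc A (τ X))
    {m n : ℕ} (h : gaussVal A F hq) {P Q Z : LaurentSeries A} (hP : inc A P ∈ F)
    (hQ : inc A Q ∈ F) (hPQ : ((h : F) : LaurentSeries K) * inc A Q = inc A P)
    (hZ : τ (Q + HahnSeries.C π ^ m * P) = τ Q + HahnSeries.C π ^ n * Z)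
    (hτQ : red A (τ Q) ≠ 0) :
    ∃ h' : gaussVal A F hq,
      T (1 + algebraMap K F (π : K) ^ m * (h : F)) = 1 + algebraMap K F (π : K) ^ n * (h' : F) ∧
      ((h' : F) : LaurentSeries K) * inc A (τ Q) = inc A Z := by
  have hX : inc A (Q + HahnSeries.C π ^ m * P) ∈ F := by
    rw [map_add, map_mul, map_pow]
    exact add_mem hQ (mul_mem (pow_mem (inc_C_mem π) m) hP)
  -- `u * Q = X`
  have h1 : (1 + algebraMap K F (π : K) ^ m * (h : F)) * (⟨inc A Q, hQ⟩ : F) =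
      ⟨inc A (Q + HahnSeries.C π ^ m * P), hX⟩ := by
    apply Subtype.ext
    push_cast
    have := coe_algebraMap_pow (F := F) (π := π) m
    push_cast at this
    rw [this, map_add, map_mul, ← hPQ]
    ring
  generalize 1 + algebraMap K F (π : K) ^ m * (h : F) = u at h1 ⊢
  have h2 : ((T u : F) : LaurentSeries K) * inc A (τ Q) =
      inc A (τ Q) + inc A (HahnSeries.C π ^ n) * inc A Z := by
    have e : T u * T ⟨inc A Q, hQ⟩ = T ⟨inc A (Q + HahnSeries.C π ^ m * P), hX⟩ := by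
      rw [← map_mul, h1]
    have e2 := congrArg (fun f : F => (f : LaurentSeries K)) e
    simp only [IntermediateField.coe_mul] at e2
    rw [hT _ hQ, hT _ hX, hZ, (inc A).map_add, (inc A).map_mul] at e2
    exact e2
  -- memberships
  have hτQF : inc A (τ Q) ∈ F := by
    rw [← hT _ hQ]
    exact (T ⟨inc A Q, hQ⟩).2
  have hτXF : inc A (τ (Q + HahnSeries.C π ^ m * P)) ∈ F := by
    rw [← hT _ hX]
    exact (T ⟨inc A (Q + HahnSeries.C π ^ m * P), hX⟩).2
  have hZF : inc A Z ∈ F := by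
    apply inc_mem_of_pow_mul hπ (m := n)
    have : inc A (HahnSeries.C π ^ n * Z) =
        inc A (τ (Q + HahnSeries.C π ^ m * P)) - inc A (τ Q) := by
      rw [hZ, map_add, add_sub_cancel_left]
    rw [this]
    exact sub_mem hτXF hτQF
  refine ⟨gaussQuot hq Z (τ Q) hZF hτQF hτQ, ?_, coe_gaussQuot_mul hq Z (τ Q) hZF hτQF hτQ⟩
  apply Subtype.ext
  apply mul_right_cancel₀ (inc_ne_zero_of_red_ne_zero hτQ)
  rw [h2]
  push_cast
  have := coe_algebraMap_pow (F := F) (π := π) n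
  push_cast at this
  rw [this, add_mul, one_mul, mul_assoc, coe_gaussQuot_mul]

/-- **Formula `(*)`.**  Let `T : F →* F` have the `q`-expansion `Tm`.
Proof.  `h = P / Q` (`h.2 : IsGaussInt`): `h * inc Q = inc P`, `red Q ≠ 0`.  Put
`X = Q + C π ^ m * P`, `u = 1 + π ^ m h`; then `u * ⟨inc Q, _⟩ = ⟨inc X, _⟩` in `F`, hence
`T u * T ⟨inc Q, _⟩ = T ⟨inc X, _⟩`.  By `hT`, `inc_Tm`, `Tm_add`:
`(T u - 1) * inc (Tm p ξ Q) = inc (C π ^ m * Z)`; `inc Z ∈ F` (`inc_mem_of_pow_mul`, or divide);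
`red (Tm p ξ Q) = (red Q)(q ^ p) * Frob (red Q) ≠ 0` (`red_Tm`, `qExpand_injective`,
`coeffMap_frobenius_ne_zero`).  Take `h' = gaussQuot hq Z (Tm p ξ Q) _ _ _`.
`gaussRes_spec`: `res h' * red (Tm Q) = red Z = (red P)(q ^ p) * Frob (red X)`, `red X = red Q`
(`m ≥ 1`), `res h * red Q = red P`; cancel. -/
theorem star_T [CharP (IsLocalRing.ResidueField A) p] (hπ : Irreducible π) (hp : π ∣ (p : A))
    {ξ : Aˣ} (hξ : ξ ^ p = 1) (T : F →* F)
    (hT : ∀ u : F, ((T u : F) : LaurentSeries K) = Tm p (unitK ξ) (u : LaurentSeries K))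
    {m : ℕ} (hm : 1 ≤ m) (h : gaussVal A F hq) :
    ∃ h' : gaussVal A F hq,
      T (1 + algebraMap K F (π : K) ^ m * (h : F)) = 1 + algebraMap K F (π : K) ^ m * (h' : F) ∧
      gaussRes hq h' = qExpand _ p (gaussRes hq h) := by
  obtain ⟨P, Q, hP, hQ, hQ0, hPQ⟩ := h.2
  obtain ⟨Z, hZ, hZred⟩ := Tm_add hπ hp hξ hm Q P
  have hfr : coeffMap (frobenius (IsLocalRing.ResidueField A) p) (red A Q) ≠ 0 :=
    coeffMap_frobenius_ne_zero hQ0
  have hex : qExpand (IsLocalRing.ResidueField A) p (red A Q) ≠ 0 := fun h0 =>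
    hQ0 (qExpand_injective (R := IsLocalRing.ResidueField A) p (by rw [h0, map_zero]))
  have hτQ : red A (Tm p ξ Q) ≠ 0 := by
    rw [red_Tm hπ hp hξ]
    exact mul_ne_zero hex hfr
  obtain ⟨h', h1, h2⟩ := star_aux hq hπ T (Tm p ξ)
    (fun X hX => by rw [hT, inc_Tm]) h hP hQ hPQ hZ hτQ
  refine ⟨h', h1, ?_⟩
  have h3 := gaussRes_spec hq h' hτQ h2
  have h4 := gaussRes_spec hq h hQ0 hPQ
  rw [red_Tm hπ hp hξ, hZred, ← h4, map_mul, ← mul_assoc] at h3
  exact mul_right_cancel₀ hex (mul_right_cancel₀ hfr h3)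

/-- **Formula `(**)`.**  Same proof with `V_add`, `red_V`. -/
theorem star_U [CharP (IsLocalRing.ResidueField A) p] (hπ : Irreducible π) (hp : π ∣ (p : A))
    {ξ : Aˣ} (hξ : ξ ^ p = 1) (U : F →* F)
    (hU : ∀ u : F, ((U u : F) : LaurentSeries K) = V p (unitK ξ) (u : LaurentSeries K))
    {m : ℕ} (hm : 1 ≤ m) (h : gaussVal A F hq) :
    ∃ h' : gaussVal A F hq,
      U (1 + algebraMap K F (π : K) ^ m * (h : F)) =
        1 + algebraMap K F (π : K) ^ (m + 1) * (h' : F) := by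
  obtain ⟨P, Q, hP, hQ, hQ0, hPQ⟩ := h.2
  obtain ⟨Z, hZ⟩ := V_add hπ hp hξ hm Q P
  have hτQ : red A (V p ξ Q) ≠ 0 := by
    rw [red_V hπ hp hξ]
    exact coeffMap_frobenius_ne_zero hQ0
  obtain ⟨h', h1, -⟩ := star_aux hq hπ U (V p ξ)
    (fun X hX => by rw [hU, inc_V]) h hP hQ hPQ hZ hτQ
  exact ⟨h', h1⟩

end Fermat.Agent.S33.Depth
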